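import Mathlib

/-!
# The fixed field of `Aut(ℂ)` is `ℚ`  (package P4 of the S23 plan)

Main results (all in `namespace Fermat.Agent.S23.H19`):
* `exists_ringEquiv_extending`: an automorphism of a field `F` mapping to an algebraically closed
  field `K` extends to an automorphism of `K` (which moreover negates a given transcendence basis).
* `mem_range_ratCast_of_forall_ringAut_fixed`: a complex number fixed by all ring automorphisms
  of `ℂ` is rational.
-/

set_option autoImplicit false

namespace Fermat.Agent.S23.H19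

open MvPolynomial

/-- An automorphism `τ` of a field `F` with an algebra map to an algebraically closed field `K`
extends to an automorphism of `K` which negates a given transcendence basis of `K` over `F`. -/
theorem exists_ringEquiv_extending
    {F K : Type*} [Field F] [Field K] [IsAlgClosed K] [Algebra F K]
    (τ : F ≃+* F) {ι : Type*} (v : ι → K) (hv : IsTranscendenceBasis F v) :
    ∃ σ : K ≃+* K, (∀ a : F, σ (algebraMap F K a) = algebraMap F K (τ a)) ∧
      ∀ i, σ (v i) = - v i := by
  classical
  have := IsAlgClosed.isAlgClosure_of_transcendence_basis v hv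
  let neg : MvPolynomial ι F ≃ₐ[F] MvPolynomial ι F :=
    AlgEquiv.ofAlgHom (aeval fun i => - X i) (aeval fun i => - X i)
      (by ext; simp) (by ext; simp)
  let ψ : MvPolynomial ι F ≃+* MvPolynomial ι F :=
    (MvPolynomial.mapEquiv ι τ).trans neg.toRingEquiv
  let e₀ := hv.1.aevalEquiv
  let τ' : Algebra.adjoin F (Set.range v) ≃+* Algebra.adjoin F (Set.range v) :=
    (e₀.symm.toRingEquiv.trans ψ).trans e₀.toRingEquiv
  refine ⟨IsAlgClosure.equivOfEquiv K K τ', ?_, ?_⟩
  · intro a
    have h1 : algebraMap F K a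
        = algebraMap (Algebra.adjoin F (Set.range v)) K
            (algebraMap F (Algebra.adjoin F (Set.range v)) a) := rfl
    have h2 : τ' (algebraMap F (Algebra.adjoin F (Set.range v)) a)
        = algebraMap F (Algebra.adjoin F (Set.range v)) (τ a) := by
      simp [τ', ψ, neg, e₀, MvPolynomial.algebraMap_eq]
      rw [← MvPolynomial.algebraMap_eq, AlgEquiv.commutes]
    rw [h1, IsAlgClosure.equivOfEquiv_algebraMap, h2]
    rfl
  · intro i
    have h1 : v i = algebraMap (Algebra.adjoin F (Set.range v)) K (e₀ (X i)) := by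
      rw [AlgebraicIndependent.algebraMap_aevalEquiv, aeval_X]
    have h2 : τ' (e₀ (X i)) = - e₀ (X i) := by
      simp [τ', ψ, neg]
    rw [h1, IsAlgClosure.equivOfEquiv_algebraMap, h2, map_neg]

/-- A complex number fixed by every ring automorphism of `ℂ` is rational. -/
theorem mem_range_ratCast_of_forall_ringAut_fixed (x : ℂ) (h : ∀ σ : ℂ ≃+* ℂ, σ x = x) :
    ∃ q : ℚ, (q : ℂ) = x := by
  by_cases hx : IsAlgebraic ℚ x
  · -- algebraic case: Galois theory of `ℚ̄/ℚ` plus the extension lemma over `ℚ̄`
    have hxQ : x ∈ algebraicClosure ℚ ℂ := mem_algebraicClosure_iff.2 hx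
    have hcl : IsAlgClosure ℚ (algebraicClosure ℚ ℂ) := algebraicClosure.isAlgClosure ℚ ℂ
    have hgal : IsGalois ℚ (algebraicClosure ℚ ℂ) :=
      IsAlgClosure.isGalois ℚ (algebraicClosure ℚ ℂ)
    have hbot : (⟨x, hxQ⟩ : algebraicClosure ℚ ℂ) ∈
        (⊥ : IntermediateField ℚ (algebraicClosure ℚ ℂ)) := by
      rw [InfiniteGalois.mem_bot_iff_fixed]
      intro f
      obtain ⟨B, hB⟩ := exists_isTranscendenceBasis (algebraicClosure ℚ ℂ) ℂ
      obtain ⟨σ, hσ, -⟩ := exists_ringEquiv_extending (f : algebraicClosure ℚ ℂ ≃+* algebraicClosure ℚ ℂ) _ hB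
      have h1 := hσ ⟨x, hxQ⟩
      have h2 := h σ
      apply Subtype.ext
      have h3 : algebraMap (algebraicClosure ℚ ℂ) ℂ ⟨x, hxQ⟩ = x := rfl
      rw [h3, h2] at h1
      exact h1.symm
    obtain ⟨q, hq⟩ := IntermediateField.mem_bot.1 hbot
    refine ⟨q, ?_⟩
    have := congrArg (algebraMap (algebraicClosure ℚ ℂ) ℂ) hq
    simpa using this
  · -- transcendental case: negate a transcendence basis containing `x`
    exfalso
    have hind : AlgebraicIndepOn ℚ id ({x} : Set ℂ) :=
      (algebraicIndependent_singleton_iff (⟨x, rfl⟩ : ({x} : Set ℂ))).2 hx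
    obtain ⟨B, hxB, hB⟩ := exists_isTranscendenceBasis_superset hind
    obtain ⟨σ, -, hσ⟩ := exists_ringEquiv_extending (RingEquiv.refl ℚ) _ hB
    have h1 := hσ ⟨x, hxB rfl⟩
    have h2 := h σ
    simp only [h2] at h1
    have hx0 : x = 0 := by
      have : (2 : ℂ) * x = 0 := by linear_combination h1
      simpa using this
    exact hx (hx0 ▸ isAlgebraic_zero)

end Fermat.Agent.S23.H19
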