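import Mathlib
import Fermat.Agent.S23.H19.AutComplex

/-!
# Galois descent for subspaces of `ι → ℂ`  (package P5 of the S23 plan)

A `ℂ`-subspace of `ι → ℂ` (`ι` finite) which is stable under the coordinatewise action of all
ring automorphisms of `ℂ` is spanned by its vectors with rational coordinates.
-/

set_option autoImplicit false

namespace Fermat.Agent.S23.H19

open Finset

/-- Galois descent: a subspace of `ι → ℂ` stable under coordinatewise ring automorphisms of `ℂ`
is spanned by its rational points. -/
theorem span_rat_points_of_ringAut_stable {ι : Type*} [Finite ι] (V : Submodule ℂ (ι → ℂ))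
    (hV : ∀ σ : ℂ ≃+* ℂ, ∀ v ∈ V, (fun i => σ (v i)) ∈ V) :
    Submodule.span ℂ {v : ι → ℂ | v ∈ V ∧ ∀ i, ∃ q : ℚ, (q : ℂ) = v i} = V := by
  classical
  cases nonempty_fintype ι
  set W := Submodule.span ℂ {v : ι → ℂ | v ∈ V ∧ ∀ i, ∃ q : ℚ, (q : ℂ) = v i} with hW
  refine le_antisymm (Submodule.span_le.2 fun v hv => hv.1) ?_
  -- support of a vector
  let supp : (ι → ℂ) → Finset ι := fun v => univ.filter fun i => v i ≠ 0
  have hsupp : ∀ (v : ι → ℂ) (i : ι), i ∈ supp v ↔ v i ≠ 0 := fun v i => by simp [supp]
  -- strong induction on the size of the support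
  have key : ∀ k : ℕ, ∀ v ∈ V, (supp v).card = k → v ∈ W := by
    intro k
    induction k using Nat.strong_induction_on with
    | _ k ih =>
      intro v hvV hk
      by_cases hv0 : v = 0
      · rw [hv0]; exact W.zero_mem
      -- choose a nonzero `u ∈ V` with support inside that of `v` and of minimal size
      have hex : ∃ m : ℕ, ∃ u ∈ V, u ≠ 0 ∧ supp u ⊆ supp v ∧ (supp u).card = m :=
        ⟨_, v, hvV, hv0, subset_rfl, rfl⟩
      obtain ⟨u, huV, hu0, husub, hucard⟩ := Nat.find_spec hex
      have hmin : ∀ w ∈ V, w ≠ 0 → supp w ⊆ supp v → Nat.find hex ≤ (supp w).card :=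
        fun w hwV hw0 hwsub => Nat.find_min' hex ⟨w, hwV, hw0, hwsub, rfl⟩
      obtain ⟨i0, hi0⟩ : ∃ i, u i ≠ 0 := by
        by_contra hcon
        push Not at hcon
        exact hu0 (funext hcon)
      -- normalise
      set u' : ι → ℂ := (u i0)⁻¹ • u with hu'
      have hu'V : u' ∈ V := V.smul_mem _ huV
      have hu'i0 : u' i0 = 1 := by simp [hu', hi0]
      have hu'supp : supp u' = supp u := by
        ext i
        simp [hsupp, hu', hi0]
      -- `u'` is fixed by all automorphisms
      have hfix : ∀ σ : ℂ ≃+* ℂ, ∀ i, σ (u' i) = u' i := by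
        intro σ
        by_contra hcon
        push Not at hcon
        obtain ⟨j, hj⟩ := hcon
        set w : ι → ℂ := (fun i => σ (u' i)) - u' with hw
        have hwV : w ∈ V := V.sub_mem (hV σ u' hu'V) hu'V
        have hw0 : w ≠ 0 := by
          intro h0
          apply hj
          have := congrFun h0 j
          simpa [hw, sub_eq_zero] using this
        have hwi0 : w i0 = 0 := by simp [hw, hu'i0]
        have hwsub : supp w ⊆ (supp u).erase i0 := by
          intro i hi
          rw [hsupp] at hi
          rw [Finset.mem_erase, ← hu'supp, hsupp]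
          refine ⟨fun h => hi (h ▸ hwi0), fun h => hi ?_⟩
          simp [hw, h]
        have hlt : (supp w).card < (supp u).card :=
          lt_of_le_of_lt (Finset.card_le_card hwsub)
            (Finset.card_erase_lt_of_mem ((hsupp u i0).2 hi0))
        have := hmin w hwV hw0 (hwsub.trans ((Finset.erase_subset _ _).trans husub))
        omega
      have hu'rat : ∀ i, ∃ q : ℚ, (q : ℂ) = u' i := fun i =>
        mem_range_ratCast_of_forall_ringAut_fixed (u' i) (fun σ => hfix σ i)
      have hu'W : u' ∈ W := Submodule.subset_span ⟨hu'V, hu'rat⟩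
      -- subtract
      set v' : ι → ℂ := v - (v i0) • u' with hv'
      have hv'V : v' ∈ V := V.sub_mem hvV (V.smul_mem _ hu'V)
      have hi0v : i0 ∈ supp v := husub ((hsupp u i0).2 hi0)
      have hv'sub : supp v' ⊆ (supp v).erase i0 := by
        intro i hi
        rw [hsupp] at hi
        rw [Finset.mem_erase]
        refine ⟨fun h => hi ?_, ?_⟩
        · subst h; simp [hv', hu'i0]
        · by_contra hni
          rw [hsupp, not_not] at hni
          have hui : u' i = 0 := by
            by_contra hne
            have : i ∈ supp v := husub (hu'supp ▸ (hsupp u' i).2 hne)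
            exact (hsupp v i).1 this hni
          apply hi
          simp [hv', hni, hui]
      have hlt : (supp v').card < k := by
        rw [← hk]
        exact lt_of_le_of_lt (Finset.card_le_card hv'sub) (Finset.card_erase_lt_of_mem hi0v)
      have hv'W : v' ∈ W := ih _ hlt v' hv'V rfl
      have : v = v' + (v i0) • u' := by simp [hv']
      rw [this]
      exact W.add_mem hv'W (W.smul_mem _ hu'W)
  exact fun v hv => key _ v hv rfl

end Fermat.Agent.S23.H19
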